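/-
Cluster GAL, block NV2 (owner helper91).  Abstract Kummer theory on a uniformised function field:
definitions.  Setting of `Fermat.Agent.S24` (`IsUniformization`, `IsPointDatum`, `CL.*`): a function
field `F/K` embedded by `Ψ` in a field `L` on which a group `G` acts, `F` being fixed by `H ≤ G`.
-/
import Fermat.Agent.S24.CL.Complete
import Fermat.Agent.S24.CL.Count
import Fermat.Agent.S24.B.PointDatum

set_option autoImplicit false

namespace Fermat.Agent.NV2

open AlgebraicCurve IntermediateField Fermat.Agent.S24 Fermat.Agent.S24.B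
open scoped WithZero

variable {K F L G : Type*} [Field K] [Field F] [Algebra K F] [Field L] [Algebra K L]
  [Group G] [MulSemiringAction G L]

/-- A local expansion `φ` of `L` (with coefficients in `K`) on which `δ` acts by the twist by a
primitive `E`-th root of unity `ζ`, and for which the local parameter `y` of the base has
order `E`. -/
structure IsExpDatum (Ψ : F →ₐ[K] L) (y : F) (δ : G) (E : ℕ) (φ : L →+* LaurentSeries K)
    (ζ : Kˣ) : Prop where
  E_pos : 0 < E
  φ_const : ∀ a : K, φ (algebraMap K L a) = HahnSeries.C a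
  prim : IsPrimitiveRoot ζ E
  φ_smul : ∀ g : L, φ (δ • g) = twist ζ (φ g)
  order_y : (φ (Ψ y)).order = (E : ℤ)

theorem IsExpDatum.isPointDatum {Ψ : F →ₐ[K] L} {y : F} {δ : G} {E : ℕ}
    {φ : L →+* LaurentSeries K} {ζ : Kˣ} (h : IsExpDatum Ψ y δ E φ ζ) :
    IsPointDatum Ψ y ((lval K).comap φ) δ E :=
  isPointDatum_of_expansion Ψ y δ E h.E_pos φ h.φ_const ζ h.prim h.φ_smul h.order_y

/-- Every place of `F` is seen by an expansion datum whose rotation element is `1` or lies in
`S`. -/
def Covers (x : F) (Ψ : F →ₐ[K] L) (S : Set G) : Prop :=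
  ∀ v : Place K F, ∃ (y : F) (δ : G) (E : ℕ) (φ : L →+* LaurentSeries K) (ζ : Kˣ),
    (δ = 1 ∨ δ ∈ S) ∧ K⟮y⟯ = K⟮x⟯ ∧ IsExpDatum Ψ y δ E φ ζ ∧ 0 < v.ord y

/-- Every element of `S` is the rotation element of an expansion datum. -/
def HasData (x : F) (Ψ : F →ₐ[K] L) (S : Set G) : Prop :=
  ∀ σ ∈ S, ∃ (y : F) (E : ℕ) (φ : L →+* LaurentSeries K) (ζ : Kˣ),
    K⟮y⟯ = K⟮x⟯ ∧ IsExpDatum Ψ y σ E φ ζ

/-- The elements of `H` which are conjugate in `G` to a power of an element of `S`
("parabolic and elliptic elements"). -/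
def peElts (H : Subgroup G) (S : Set G) : Set G :=
  {η | η ∈ H ∧ ∃ σ ∈ S, ∃ (k : ℕ) (g : G), η = g⁻¹ * σ ^ k * g}

/-- The characters of `H` of exponent `n` which are trivial on `peElts H S`. -/
def IsPEChar (H : Subgroup G) (S : Set G) (n : ℕ) (χ : H →* Kˣ) : Prop :=
  (∀ η : H, χ η ^ n = 1) ∧ ∀ η : H, (η : G) ∈ peElts H S → χ η = 1

/-- `h` is an eigenvector of `H` with character `χ`. -/
def HasChar (H : Subgroup G) (h : L) (χ : H →* Kˣ) : Prop :=
  ∀ η : H, (η : G) • h = algebraMap K L (χ η : K) * h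

end Fermat.Agent.NV2
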