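/-
Cluster GAL, block NV2 (owner of the skeleton: helper91).  TASK NV2-A2.  Proofs: helper82.

The fixed field of `H` in `L` is `Ψ F`.
PROOF.  For `θ : L` fixed by `H` the polynomial `∏_{q : G ⧸ H} (X - q • θ)` (well defined) is
`G`-invariant, so by `hU.invariants` its coefficients lie in `Ψ (K(x))`: `θ` is algebraic over
`k₀ = Ψ (K(x))` of degree `≤ [G : H]`.  The field `M' = (Ψ F)(g)` consists of `H`-fixed elements and is
finite separable over `k₀` (char. 0), so it has a primitive element, `[M' : k₀] ≤ [G : H] = [F : K(x)]`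
(`CL.finrank_eq_index'`), hence `M' = Ψ F`.
-/
import Fermat.Agent.NV2.Abs.Defs

set_option autoImplicit false
set_option linter.style.haveILetI false

namespace Fermat.Agent.NV2

open AlgebraicCurve IntermediateField Fermat.Agent.S24 Fermat.Agent.S24.B

variable {K F L G : Type*} [Field K] [Field F] [Algebra K F] [Field L] [Algebra K L]
  [Group G] [MulSemiringAction G L]
variable {x : F} {H : Subgroup G} {Ψ : F →ₐ[K] L}

namespace Fixed

open Polynomial

/-- the conjugates `g • θ` of an `H`-fixed element, indexed by the left cosets `g H`. -/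
noncomputable def conjL (θ : L) (hθ : ∀ η ∈ H, η • θ = θ) (q : G ⧸ H) : L :=
  Quotient.liftOn' q (fun g => g • θ) (fun a b hab => by
    have hab' : a⁻¹ * b ∈ H := QuotientGroup.leftRel_apply.mp hab
    have h := hθ _ hab'
    show a • θ = b • θ
    conv_lhs => rw [← h, smul_smul, mul_inv_cancel_left])

variable (θ : L) (hθ : ∀ η ∈ H, η • θ = θ)

theorem conjL_mk (g : G) : conjL θ hθ (g : G ⧸ H) = g • θ := rfl

theorem smul_conjL (g : G) (q : G ⧸ H) : g • conjL θ hθ q = conjL θ hθ (g • q) := by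
  induction q using QuotientGroup.induction_on with
  | H a =>
    show g • a • θ = (g * a) • θ
    rw [smul_smul]

variable [Fintype (G ⧸ H)]

/-- `∏ (X - g • θ)` over the cosets. -/
noncomputable def polyL : L[X] := ∏ q : G ⧸ H, (X - C (conjL θ hθ q))

theorem polyL_monic : (polyL θ hθ).Monic :=
  monic_prod_of_monic _ _ fun _ _ => monic_X_sub_C _

theorem polyL_natDegree : (polyL θ hθ).natDegree = Fintype.card (G ⧸ H) := by
  rw [polyL, natDegree_prod_of_monic _ _ fun _ _ => monic_X_sub_C _]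
  simp

theorem smul_polyL (g : G) : g • polyL θ hθ = polyL θ hθ := by
  rw [polyL, Finset.smul_prod']
  refine Fintype.prod_bijective _ (MulAction.bijective g) _ _ fun q => ?_
  rw [smul_sub, Polynomial.smul_X, Polynomial.smul_C, smul_conjL]

theorem polyL_eval : (polyL θ hθ).eval θ = 0 := by
  rw [polyL, eval_prod]
  refine Finset.prod_eq_zero (Finset.mem_univ ((1 : G) : G ⧸ H)) ?_
  rw [conjL_mk, one_smul]
  simp

include hθ in
/-- the polynomial `∏ (X - g • θ)` descends to `K(x)`. -/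
theorem exists_polyL (hU : IsUniformization x H Ψ) :
    ∃ p : K⟮x⟯[X], p.Monic ∧ p.natDegree = Fintype.card (G ⧸ H) ∧
      (p.map (CL.baseHom x Ψ)).eval θ = 0 := by
  have hl : polyL θ hθ ∈ Polynomial.lifts (CL.baseHom x Ψ) := by
    rw [Polynomial.lifts_iff_coeff_lifts]
    intro n
    obtain ⟨r, hr, hr'⟩ := hU.invariants ((polyL θ hθ).coeff n) (fun g => by
      rw [← Polynomial.coeff_smul, smul_polyL])
    exact ⟨⟨r, hr⟩, hr'⟩
  obtain ⟨p, hp, hdeg, hmon⟩ := Polynomial.lifts_and_natDegree_eq_and_monic hl (polyL_monic θ hθ)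
  exact ⟨p, hmon, by rw [hdeg, polyL_natDegree], by rw [hp, polyL_eval]⟩

end Fixed

theorem exists_eq_of_fixed [CharZero K] [H.FiniteIndex] (hU : IsUniformization x H Ψ)
    [FiniteDimensional K⟮x⟯ F] (g : L) (hg : ∀ η ∈ H, η • g = g) : ∃ f : F, Ψ f = g := by
  classical
  haveI : Fintype (G ⧸ H) := Fintype.ofFinite _
  haveI : CharZero K⟮x⟯ := charZero_of_injective_algebraMap (algebraMap K K⟮x⟯).injective
  letI : Algebra K⟮x⟯ L := (CL.baseHom x Ψ).toAlgebra
  -- `Ψ` as a `K(x)`-algebra homomorphism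
  let Ψ' : F →ₐ[K⟮x⟯] L := { (Ψ : F →+* L) with commutes' := fun _ => rfl }
  have hΨ' : ∀ f, Ψ' f = Ψ f := fun _ => rfl
  -- the field of `H`-fixed elements
  let Fix : IntermediateField K⟮x⟯ L :=
    { carrier := {θ | ∀ η ∈ H, η • θ = θ}
      mul_mem' := fun {a b} ha hb η hη => by rw [smul_mul', ha η hη, hb η hη]
      one_mem' := fun η _ => smul_one η
      add_mem' := fun {a b} ha hb η hη => by rw [smul_add, ha η hη, hb η hη]
      zero_mem' := fun η _ => smul_zero η
      algebraMap_mem' := fun r η hη => hU.smul_of_mem η hη _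
      inv_mem' := fun a ha η hη => by rw [smul_inv'', ha η hη] }
  have hFix : ∀ θ ∈ Fix, ∀ η ∈ H, η • θ = θ := fun θ h => h
  -- integrality and degree bound for fixed elements
  have hint : ∀ θ ∈ Fix, IsIntegral K⟮x⟯ θ ∧ (minpoly K⟮x⟯ θ).natDegree ≤ H.index := by
    intro θ hθ
    obtain ⟨p, hmon, hdeg, h0⟩ := Fixed.exists_polyL θ (hFix θ hθ) hU
    have h0' : Polynomial.aeval θ p = 0 := by
      rw [Polynomial.aeval_def, ← Polynomial.eval_map]
      exact h0
    refine ⟨⟨p, hmon, h0'⟩, ?_⟩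
    rw [Subgroup.index, Nat.card_eq_fintype_card, ← hdeg]
    exact Polynomial.natDegree_le_of_dvd (minpoly.dvd _ _ h0') hmon.ne_zero
  set E₁ : IntermediateField K⟮x⟯ L := Ψ'.fieldRange with hE₁
  set E₂ : IntermediateField K⟮x⟯ L := E₁ ⊔ K⟮x⟯⟮g⟯ with hE₂
  have hE₁Fix : E₁ ≤ Fix := by
    rintro _ ⟨f, rfl⟩
    exact fun η hη => hU.smul_of_mem η hη f
  have hgFix : K⟮x⟯⟮g⟯ ≤ Fix := by
    rw [IntermediateField.adjoin_simple_le_iff]
    exact hg
  have hE₂Fix : E₂ ≤ Fix := sup_le hE₁Fix hgFix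
  have hfr₁ : Module.finrank K⟮x⟯ E₁ = Module.finrank K⟮x⟯ F :=
    (LinearEquiv.finrank_eq (AlgEquiv.ofInjectiveField Ψ').toLinearEquiv).symm
  haveI : FiniteDimensional K⟮x⟯ E₁ :=
    (AlgEquiv.ofInjectiveField Ψ').toLinearEquiv.finiteDimensional
  haveI : FiniteDimensional K⟮x⟯ K⟮x⟯⟮g⟯ :=
    IntermediateField.adjoin.finiteDimensional (hint g hg).1
  haveI : FiniteDimensional K⟮x⟯ E₂ := IntermediateField.finiteDimensional_sup _ _
  obtain ⟨α, hα⟩ := Field.exists_primitive_element K⟮x⟯ E₂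
  have hαFix : (α : L) ∈ Fix := hE₂Fix α.2
  have hαint : IsIntegral K⟮x⟯ α := Algebra.IsIntegral.isIntegral α
  have hfr₂ : Module.finrank K⟮x⟯ E₂ ≤ H.index := by
    have h1 : Module.finrank K⟮x⟯ E₂ = (minpoly K⟮x⟯ α).natDegree := by
      rw [← IntermediateField.adjoin.finrank hαint, hα, IntermediateField.finrank_top']
    rw [h1, IntermediateField.minpoly_eq]
    exact (hint _ hαFix).2
  have heq : E₁ = E₂ := by
    apply IntermediateField.eq_of_le_of_finrank_le le_sup_left
    rw [hfr₁, CL.finrank_eq_index' hU]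
    exact hfr₂
  have hgE : g ∈ E₁ := by
    rw [heq]
    exact (le_sup_right : K⟮x⟯⟮g⟯ ≤ E₂) (IntermediateField.mem_adjoin_simple_self _ g)
  obtain ⟨f, hf⟩ := hgE
  exact ⟨f, hf⟩

/-- An element of `L` which is algebraic over `K` (algebraically closed) is a constant. -/
theorem exists_const_of_pow_eq [IsAlgClosed K] {n : ℕ} (hn : 0 < n) (g : L) (a : K)
    (hg : g ^ n = algebraMap K L a) : ∃ b : K, g = algebraMap K L b := by
  have hint : IsIntegral K g := by
    refine ⟨Polynomial.X ^ n - Polynomial.C a, Polynomial.monic_X_pow_sub_C a hn.ne', ?_⟩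
    simp [hg]
  obtain ⟨b, hb⟩ := minpoly.mem_range_of_degree_eq_one K g
    (IsAlgClosed.degree_eq_one_of_irreducible K (minpoly.irreducible hint))
  exact ⟨b, hb.symm⟩

end Fermat.Agent.NV2
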