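/-
Cluster GAL, block NV2 (owner of the skeleton: helper91).  TASK NV2-A1 (proved by helper151).

The ramification index of the place attached to the coset `q` equals the length of the `δ`-orbit
of `q`.  PROOF: exactly the squeeze in `S24.CL.ncard_places_eq_orb` (`CL/Count.lean`):
`∑_{v | y} ord_v y = [F : K(y)] = [G : H] = ∑_{orbits} length`, every place over `y = 0` comes from
an orbit (`CL.exists_conjPlace_eq` / `CL.exists_conj_of_place`), the place only depends on the orbit,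
and `0 < ord ≤ length` (`CL.ord_le_of_pow_smul_eq`).  Hence equality for every orbit.
-/
import Fermat.Agent.NV2.Abs.Defs

set_option autoImplicit false
set_option linter.style.haveILetI false

namespace Fermat.Agent.NV2

open AlgebraicCurve IntermediateField Fermat.Agent.S24 Fermat.Agent.S24.B
open scoped WithZero

/-- The squeeze, in the form "every term is extremal". -/
theorem eq_of_squeeze {Ω P : Type*} [Fintype Ω] [DecidableEq P] (s : Finset P) (ν : Ω → P)
    (hν : ∀ ω, ν ω ∈ s) (hsurj : ∀ v ∈ s, ∃ ω, ν ω = v) (e : P → ℤ) (he : ∀ v ∈ s, 0 < e v)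
    (per : Ω → ℤ) (hle : ∀ ω, e (ν ω) ≤ per ω) (hsum : ∑ ω, per ω = ∑ v ∈ s, e v) (ω : Ω) :
    e (ν ω) = per ω := by
  classical
  set c : P → ℕ := fun v => (Finset.univ.filter fun ω => ν ω = v).card with hc
  have h1 : ∑ ω, e (ν ω) = ∑ v ∈ s, (c v : ℤ) * e v := by
    rw [← Finset.sum_fiberwise_of_maps_to (s := Finset.univ) (t := s) (g := ν) (fun ω _ => hν ω)]
    apply Finset.sum_congr rfl
    intro v _
    rw [Finset.sum_congr rfl (fun ω hω => by rw [(Finset.mem_filter.mp hω).2])]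
    simp [hc]
  have hc1 : ∀ v ∈ s, 1 ≤ c v := by
    intro v hv
    obtain ⟨ω, hω⟩ := hsurj v hv
    exact Finset.card_pos.mpr ⟨ω, by simp [hω]⟩
  have h3 : ∀ v ∈ s, e v ≤ (c v : ℤ) * e v := by
    intro v hv
    have a1 : (1 : ℤ) ≤ c v := by exact_mod_cast hc1 v hv
    nlinarith [he v hv]
  have h4 : ∑ ω, per ω ≤ ∑ ω, e (ν ω) := by
    rw [hsum, h1]
    exact Finset.sum_le_sum h3
  exact (Finset.sum_eq_sum_iff_of_le (fun ω _ => hle ω)).mp
    (le_antisymm (Finset.sum_le_sum fun ω _ => hle ω) h4) ω (Finset.mem_univ ω)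

variable {K F L G : Type*} [Field K] [Field F] [Algebra K F] [Field L] [Algebra K L]
  [Group G] [MulSemiringAction G L]
variable {x y : F} {H : Subgroup G} {Ψ : F →ₐ[K] L} {V : Valuation L ℤᵐ⁰} {δ : G} {E : ℕ}

theorem conjPlace_toValuationSubring (hU : IsUniformization x H Ψ) (hy : K⟮y⟯ = K⟮x⟯)
    (hP : IsPointDatum Ψ y V δ E) (q : G ⧸ H) :
    (CL.conjPlace hU hy hP q).toValuationSubring = (CL.W hU V q).valuationSubring := rfl

theorem conjPlace_smul (hU : IsUniformization x H Ψ) (hy : K⟮y⟯ = K⟮x⟯)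
    (hP : IsPointDatum Ψ y V δ E) (q : G ⧸ H) :
    CL.conjPlace hU hy hP (δ • q) = CL.conjPlace hU hy hP q := by
  apply Place.ext
  rw [conjPlace_toValuationSubring, conjPlace_toValuationSubring]
  ext f
  rw [Valuation.mem_valuationSubring_iff, Valuation.mem_valuationSubring_iff, CL.W_smul hU hP]

variable [IsAlgClosed K] [CharZero K] [H.FiniteIndex]

theorem ord_conjPlace_eq_minimalPeriod (hx : Transcendental K x) (hU : IsUniformization x H Ψ)
    [FiniteDimensional K⟮x⟯ F] (hy : K⟮y⟯ = K⟮x⟯) (hP : IsPointDatum Ψ y V δ E) (q : G ⧸ H) :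
    (CL.conjPlace hU hy hP q).ord y = (Function.minimalPeriod (δ • ·) q : ℤ) := by
  classical
  haveI : Fintype (G ⧸ H) := Fintype.ofFinite _
  haveI : FF.IsFF1 K F := FF.IsFF1.of_exists x
  have hym : y ∈ K⟮x⟯ := CL.y_mem hy
  have hty : Transcendental K y := CL.transcendental_y hx hy
  obtain ⟨s, hs, hsum⟩ := FF.exists_finset_ord_pos y hty
  set pl : G ⧸ H → Place K F := CL.conjPlace hU hy hP with hpl
  have hperiodic : ∀ q : G ⧸ H, q ∈ Function.periodicPts (δ • · : G ⧸ H → G ⧸ H) := fun q =>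
    (Function.Injective.mem_periodicPts (MulAction.injective δ) q)
  -- invariance of `pl` and of the period under `δ`
  have hinv : ∀ g ∈ Subgroup.zpowers δ, ∀ q : G ⧸ H, pl (g • q) = pl q ∧
      Function.minimalPeriod (δ • · : G ⧸ H → G ⧸ H) (g • q)
        = Function.minimalPeriod (δ • · : G ⧸ H → G ⧸ H) q := by
    let S : Subgroup G :=
      { carrier := {g | ∀ q : G ⧸ H, pl (g • q) = pl q ∧
          Function.minimalPeriod (δ • · : G ⧸ H → G ⧸ H) (g • q)
            = Function.minimalPeriod (δ • · : G ⧸ H → G ⧸ H) q}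
        mul_mem' := fun {a b} ha hb q => by
          rw [mul_smul, (ha _).1, (hb _).1, (ha _).2, (hb _).2]
          exact ⟨rfl, rfl⟩
        one_mem' := fun q => by rw [one_smul]; exact ⟨rfl, rfl⟩
        inv_mem' := fun {a} ha q => by
          have := ha (a⁻¹ • q)
          rw [smul_inv_smul] at this
          exact ⟨this.1.symm, this.2.symm⟩ }
    have hδ : δ ∈ S := by
      intro q
      exact ⟨conjPlace_smul hU hy hP q, Function.minimalPeriod_apply (hperiodic q)⟩
    intro g hg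
    exact (Subgroup.zpowers_le.mpr hδ) hg
  have hper : ∀ q : G ⧸ H, 0 < Function.minimalPeriod (δ • ·) q := fun q =>
    Function.minimalPeriod_pos_of_mem_periodicPts (hperiodic q)
  have hpow : ∀ q : G ⧸ H, δ ^ (Function.minimalPeriod (δ • ·) q) • q = q := fun q =>
    MulAction.pow_smul_eq_iff_minimalPeriod_dvd.mpr dvd_rfl
  have hout : ∀ q : G ⧸ H, ∃ g ∈ Subgroup.zpowers δ,
      g • q = (Quotient.mk'' q : MulAction.orbitRel.Quotient (Subgroup.zpowers δ) (G ⧸ H)).out := by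
    intro q
    have h1 : (Quotient.mk'' q : MulAction.orbitRel.Quotient (Subgroup.zpowers δ) (G ⧸ H)).out
        ∈ MulAction.orbit (Subgroup.zpowers δ) q := by
      have := Quotient.mk_out (s := MulAction.orbitRel (Subgroup.zpowers δ) (G ⧸ H)) q
      exact this
    obtain ⟨⟨g, hg⟩, hg'⟩ := h1
    exact ⟨g, hg, hg'⟩
  have key := eq_of_squeeze (Ω := MulAction.orbitRel.Quotient (Subgroup.zpowers δ) (G ⧸ H))
    s (fun ω => pl ω.out) ?_ ?_ (fun v => v.ord y) ?_
    (fun ω => (Function.minimalPeriod (δ • ·) ω.out : ℤ)) ?_ ?_ (Quotient.mk'' q)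
  · obtain ⟨g, hg, hgq⟩ := hout q
    rw [← hgq, (hinv g hg q).1, (hinv g hg q).2] at key
    exact key
  · intro ω
    rw [hs]
    exact CL.ord_conjPlace_y_pos hU hy hP _
  · intro v hv
    obtain ⟨q, hq⟩ := CL.exists_conjPlace_eq hx hU hy hP v ((hs v).mp hv)
    refine ⟨Quotient.mk'' q, ?_⟩
    obtain ⟨g, hg, hgq⟩ := hout q
    show pl _ = v
    rw [← hgq, (hinv g hg q).1]
    exact hq
  · intro v hv
    exact (hs v).mp hv
  · intro ω
    exact (CL.ord_le_of_pow_smul_eq hU hP hym _ _ (conjPlace_toValuationSubring hU hy hP _)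
      (hper _) (hpow _)).2
  · rw [hsum, hy, CL.finrank_eq_index' hU, Subgroup.index, Nat.card_eq_fintype_card,
      Fintype.card_congr (MulAction.selfEquivSigmaOrbits (Subgroup.zpowers δ) (G ⧸ H)),
      Fintype.card_sigma]
    push_cast
    apply Finset.sum_congr rfl
    intro ω _
    rw [MulAction.minimalPeriod_eq_card]
    congr 1

/-- The same for a given `g : G`: the place attached to the coset `g H`. -/
theorem conjPlace_data (hx : Transcendental K x) (hU : IsUniformization x H Ψ)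
    [FiniteDimensional K⟮x⟯ F] (hy : K⟮y⟯ = K⟮x⟯) (hP : IsPointDatum Ψ y V δ E) (g : G) :
    ∃ (m l : ℕ), 0 < m ∧ 0 < l ∧ m * l = E ∧
      (∀ f : F, f ≠ 0 → V (g • Ψ f) =
        WithZero.exp (-((m : ℤ) * (CL.conjPlace hU hy hP (g : G ⧸ H)).ord f))) ∧
      ∀ k : ℕ, g⁻¹ * δ ^ k * g ∈ H ↔ l ∣ k := by
  obtain ⟨m, hm, h⟩ := CL.exists_mul_ord_conjPlace hU hy hP (g : G ⧸ H)
  have hperiodic : (g : G ⧸ H) ∈ Function.periodicPts (δ • · : G ⧸ H → G ⧸ H) :=
    haveI : Finite (G ⧸ H) := inferInstance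
    (Function.Injective.mem_periodicPts (MulAction.injective δ) _)
  refine ⟨m, Function.minimalPeriod (δ • · : G ⧸ H → G ⧸ H) (g : G ⧸ H), hm,
    Function.minimalPeriod_pos_of_mem_periodicPts hperiodic, ?_, fun f hf => h f hf, fun k => ?_⟩
  · have h1 := h y (CL.y_ne_zero hP)
    rw [← CL.conjVal_apply, CL.conjVal_y hU hy hP, WithZero.exp_inj,
      ord_conjPlace_eq_minimalPeriod hx hU hy hP] at h1
    have h2 : ((m * Function.minimalPeriod (δ • · : G ⧸ H → G ⧸ H) (g : G ⧸ H) : ℕ) : ℤ)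
        = (E : ℤ) := by
      push_cast
      omega
    exact_mod_cast h2
  · rw [← MulAction.pow_smul_eq_iff_minimalPeriod_dvd]
    have h1 : δ ^ k • (g : G ⧸ H) = ((δ ^ k * g : G) : G ⧸ H) := rfl
    rw [h1, eq_comm, QuotientGroup.eq, mul_assoc]

/-- Packaged form: for every place `v` over `y = 0` there are `g : G`, `m l : ℕ` with
`m * l = E`, `V (g • Ψ f) = exp (-(m * ord_v f))`, and `δ ^ k` fixes the coset `g H` iff `l ∣ k`. -/
theorem exists_conj_data (hx : Transcendental K x) (hU : IsUniformization x H Ψ)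
    [FiniteDimensional K⟮x⟯ F] (hy : K⟮y⟯ = K⟮x⟯) (hP : IsPointDatum Ψ y V δ E)
    (v : Place K F) (hv : 0 < v.ord y) :
    ∃ (g : G) (m l : ℕ), 0 < m ∧ 0 < l ∧ m * l = E ∧
      (∀ f : F, f ≠ 0 → V (g • Ψ f) = WithZero.exp (-((m : ℤ) * v.ord f))) ∧
      ∀ k : ℕ, g⁻¹ * δ ^ k * g ∈ H ↔ l ∣ k := by
  obtain ⟨q, rfl⟩ := CL.exists_conjPlace_eq hx hU hy hP v hv
  obtain ⟨g, rfl⟩ := QuotientGroup.mk_surjective q
  exact ⟨g, conjPlace_data hx hU hy hP g⟩

/-- The same for a given `g : G`: the place attached to the coset `g H`. -/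
theorem exists_place_data (hx : Transcendental K x) (hU : IsUniformization x H Ψ)
    [FiniteDimensional K⟮x⟯ F] (hy : K⟮y⟯ = K⟮x⟯) (hP : IsPointDatum Ψ y V δ E) (g : G) :
    ∃ (v : Place K F) (m l : ℕ), 0 < m ∧ 0 < l ∧ m * l = E ∧
      (∀ f : F, f ≠ 0 → V (g • Ψ f) = WithZero.exp (-((m : ℤ) * v.ord f))) ∧
      ∀ k : ℕ, g⁻¹ * δ ^ k * g ∈ H ↔ l ∣ k :=
  ⟨CL.conjPlace hU hy hP (g : G ⧸ H), conjPlace_data hx hU hy hP g⟩

end Fermat.Agent.NV2
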