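/-
Cluster GAL, block NV2 (owner of the skeleton: helper91).  TASK NV2-A3.
Statements are frozen interfaces.  Proofs by helper146 (they use the statements of Period and Fixed).

(1) `dvd_ord_of_pow_eq`: if `Ψ u = h ^ n` with `h : L` fixed by the parabolic/elliptic elements of `H`
then `n ∣ ord_v u` for all places `v`.
PROOF.  Take the datum `(y, δ, E, φ, ζ)` given by `hcov v`, `hP := isPointDatum`, and
`(g, m, l)` from `exists_conj_data`.  `η := g⁻¹ δ^l g ∈ H` is `1` (if `δ = 1`) or in `peElts H S`, so it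
fixes `h`, i.e. `δ^l • (g • h) = g • h`.  `hP.V_dvd l (g • h)` gives `V (g • h) = exp ((E / gcd E l) * k)`
and `E / gcd E l = m`.  `(g • h)^n = g • Ψ u` so `exp (n * m * k) = exp (-(m * ord_v u))`.

(2) `smul_eq_of_dvd_ord`: conversely if `n ∣ ord_v u` for all `v` then the parabolic/elliptic elements fix
`h`.  PROOF.  `η = g⁻¹ σ^k g ∈ H`, datum `(y, E, φ, ζ)` for `σ`, `(v, m, l)` from `exists_place_data g`,
`l ∣ k`.  `(η • h / h)^n = 1` so `η • h = ξ h` with `ξ : K` (`exists_const_of_pow_eq`).  With `w = g • h`: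
`σ^k • w = ξ w`, so `twist (ζ^k) (φ w) = C ξ * φ w`; compare the coefficients of index
`a = (φ w).order`: `ξ = ζ^(k a)`.  `n a = order φ (g • Ψ u) = m ord_v u` so `a = m b`, `k a = (k / l) E b`.
-/
import Fermat.Agent.NV2.Abs.Period
import Fermat.Agent.NV2.Abs.Fixed

set_option autoImplicit false

namespace Fermat.Agent.NV2

open AlgebraicCurve IntermediateField Fermat.Agent.S24 Fermat.Agent.S24.B
open scoped WithZero

variable {K F L G : Type*} [Field K] [Field F] [Algebra K F] [Field L] [Algebra K L]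
  [Group G] [MulSemiringAction G L]
variable {x : F} {H : Subgroup G} {Ψ : F →ₐ[K] L} {S : Set G}
variable [IsAlgClosed K] [CharZero K] [H.FiniteIndex]

omit [IsAlgClosed K] [CharZero K] in
/-- the action of the powers of the rotation element on expansions -/
theorem IsExpDatum.φ_pow_smul {y : F} {δ : G} {E : ℕ} {φ : L →+* LaurentSeries K} {ζ : Kˣ}
    (hD : IsExpDatum Ψ y δ E φ ζ) (k : ℕ) (g : L) : φ (δ ^ k • g) = twist (ζ ^ k) (φ g) := by
  induction k generalizing g with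
  | zero => simp [twist_one]
  | succ k ih => rw [pow_succ, mul_smul, ih, hD.φ_smul, twist_twist, pow_succ]

/-- conjugation bookkeeping: `δ • (g • h) = g • ((g⁻¹ * δ * g) • h)`. -/
theorem RootDvd_smul_conj (g δ : G) (h : L) : δ • (g • h) = g • ((g⁻¹ * δ * g) • h) := by
  rw [← mul_smul, ← mul_smul]
  congr 1
  group

theorem dvd_ord_of_pow_eq (hx : Transcendental K x) (hU : IsUniformization x H Ψ)
    [FiniteDimensional K⟮x⟯ F] (hcov : Covers x Ψ S) (n : ℕ) (u : F) (hu : u ≠ 0) (h : L)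
    (hpow : h ^ n = Ψ u) (hfix : ∀ η ∈ peElts H S, η • h = h) (v : Place K F) :
    (n : ℤ) ∣ v.ord u := by
  rcases Nat.eq_zero_or_pos n with rfl | hn
  · rw [pow_zero] at hpow
    have hu1 : u = 1 := Ψ.toRingHom.injective (by simpa using hpow.symm)
    rw [hu1, v.ord_one]
    exact dvd_zero _
  obtain ⟨y, δ, E, φ, ζ, hδ, hy, hD, hv⟩ := hcov v
  have hP := hD.isPointDatum
  obtain ⟨g, m, l, hm, hl, hml, hV, hk⟩ := exists_conj_data hx hU hy hP v hv
  have hΨu : Ψ u ≠ 0 := fun h0 => hu (Ψ.toRingHom.injective (by simpa using h0))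
  have hh : h ≠ 0 := by
    rintro rfl
    rw [zero_pow hn.ne'] at hpow
    exact hΨu hpow.symm
  have hηH : g⁻¹ * δ ^ l * g ∈ H := (hk l).2 dvd_rfl
  have hηfix : (g⁻¹ * δ ^ l * g) • h = h := by
    rcases hδ with rfl | hδ
    · simp
    · exact hfix _ ⟨hηH, δ, hδ, l, g, rfl⟩
  have hgh : g • h ≠ 0 := (smul_ne_zero_iff_ne g).2 hh
  have hfix' : δ ^ l • (g • h) = g • h := by rw [RootDvd_smul_conj, hηfix]
  obtain ⟨k, hVk⟩ := hP.V_dvd l (g • h) hgh hfix'
  have hEm : E / Nat.gcd E l = m := by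
    rw [← hml, Nat.gcd_mul_left_left, Nat.mul_div_cancel _ hl]
  rw [hEm] at hVk
  have h1 : ((lval K).comap φ) ((g • h) ^ n) = WithZero.exp (-((m : ℤ) * v.ord u)) := by
    rw [← smul_pow', hpow, hV u hu]
  rw [map_pow, hVk, ← WithZero.exp_nsmul, WithZero.exp_inj] at h1
  have hm' : (m : ℤ) ≠ 0 := by exact_mod_cast hm.ne'
  refine ⟨-k, ?_⟩
  apply mul_left_cancel₀ hm'
  rw [nsmul_eq_mul] at h1
  linear_combination h1

theorem smul_eq_of_dvd_ord (hx : Transcendental K x) (hU : IsUniformization x H Ψ)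
    [FiniteDimensional K⟮x⟯ F] (hdata : HasData x Ψ S) (n : ℕ) (hn : 0 < n) (u : F) (hu : u ≠ 0)
    (h : L) (hpow : h ^ n = Ψ u) (hdvd : ∀ v : Place K F, (n : ℤ) ∣ v.ord u) :
    ∀ η ∈ peElts H S, η • h = h := by
  rintro η ⟨hηH, σ, hσ, k, g, rfl⟩
  obtain ⟨y, E, φ, ζ, hy, hD⟩ := hdata σ hσ
  have hP := hD.isPointDatum
  obtain ⟨v, m, l, hm, hl, hml, hV, hk⟩ := exists_place_data hx hU hy hP g
  obtain ⟨k', rfl⟩ := (hk k).1 hηH
  obtain ⟨b, hb⟩ := hdvd v
  have hΨu : Ψ u ≠ 0 := fun h0 => hu (Ψ.toRingHom.injective (by simpa using h0))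
  have hh : h ≠ 0 := by
    rintro rfl
    rw [zero_pow hn.ne'] at hpow
    exact hΨu hpow.symm
  set η : G := g⁻¹ * σ ^ (l * k') * g with hη
  -- `η • h` is a constant multiple of `h`
  obtain ⟨ξ, hξ⟩ := exists_const_of_pow_eq (K := K) hn (η • h / h) 1 (by
    rw [div_pow, ← smul_pow', hpow, hU.smul_of_mem η hηH, div_self hΨu, map_one])
  have hηh : η • h = algebraMap K L ξ * h := by
    rw [← hξ, div_mul_cancel₀ _ hh]
  set w : L := g • h with hw
  have hw0 : w ≠ 0 := (smul_ne_zero_iff_ne g).2 hh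
  have hσw : σ ^ (l * k') • w = algebraMap K L ξ * w := by
    rw [hw, RootDvd_smul_conj, ← hη, hηh, smul_mul', hU.smul_algebraMap]
  have hφw : φ w ≠ 0 := fun h0 => hw0 (φ.injective (by rw [h0, map_zero]))
  set a : ℤ := (φ w).order with ha
  have hcoef : (φ w).coeff a ≠ 0 := fun h0 => hφw (HahnSeries.coeff_order_eq_zero.1 h0)
  have h1 : twist (ζ ^ (l * k')) (φ w) = HahnSeries.C ξ * φ w := by
    rw [← hD.φ_pow_smul, hσw, map_mul, hD.φ_const]
  have h2 : ((((ζ ^ (l * k')) ^ a : Kˣ)) : K) * (φ w).coeff a = ξ * (φ w).coeff a := by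
    rw [← twist_coeff, h1, HahnSeries.C_mul_eq_smul, HahnSeries.coeff_smul, smul_eq_mul]
  have h3 : ((((ζ ^ (l * k')) ^ a : Kˣ)) : K) = ξ := mul_right_cancel₀ hcoef h2
  -- the order of `φ w`
  have h4 : ((lval K).comap φ) (w ^ n) = WithZero.exp (-((m : ℤ) * v.ord u)) := by
    rw [hw, ← smul_pow', hpow, hV u hu]
  rw [map_pow, Valuation.comap_apply, lval_of_ne_zero hφw, ← ha, ← WithZero.exp_nsmul,
    WithZero.exp_inj, nsmul_eq_mul, hb] at h4
  have hn' : (n : ℤ) ≠ 0 := by exact_mod_cast hn.ne'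
  have ha' : a = m * b := by
    apply mul_left_cancel₀ hn'
    linear_combination -h4
  have h5 : (ζ ^ (l * k')) ^ a = 1 := by
    rw [← zpow_natCast, ← zpow_mul, ha']
    apply (hD.prim.zpow_eq_one_iff_dvd _).2
    refine ⟨k' * b, ?_⟩
    rw [← hml]
    push_cast
    ring
  rw [h5] at h3
  rw [hηh, ← h3]
  simp

end Fermat.Agent.NV2
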