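/-
Cluster GAL, block NV2 (owner of the skeleton: helper91).  TASKS NV2-A4 (a,b), NV2-A5 (c,d,card).
SKELETON FILE: statements are frozen interfaces; the task owner replaces every `sorry`.

Kummer theory: `Pic⁰(F)[n]` is in bijection with the characters of `H` of exponent `n` which are trivial
on parabolic and elliptic elements, PROVIDED `L` contains the `n`-th roots (`hroot`) and eigenvectors for all
such characters (`heis`).  API for `Pic0`: `Fermat/Agent/S27/Cls.lean` (`cls`, `cls_eq_cls_iff`,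
`exists_isDivOf`, `IsDivOf.degree`, ...), `Fermat/Agent/S24/FF*.lean` (`exists_const_or_transcendental`,
`exists_finset_ord_pos`: a transcendental element has a zero).
-/
import Fermat.Agent.NV2.Abs.RootDvd
import Fermat.Agent.S27.Cls

set_option autoImplicit false

namespace Fermat.Agent.NV2

open AlgebraicCurve IntermediateField Fermat.Agent.S24 Fermat.Agent.S24.B Fermat.Agent.S24.FF
  Fermat.Agent.S27

variable {K F L G : Type*} [Field K] [Field F] [Algebra K F] [Field L] [Algebra K L]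
  [Group G] [MulSemiringAction G L]

/-- The class `c` has multiplier `χ`. -/
def Mult (Ψ : F →ₐ[K] L) (H : Subgroup G) (n : ℕ) (c : Pic0 K F) (χ : H →* Kˣ) : Prop :=
  ∃ (D : Divisor K F) (u : F) (h : L), Divisor.degree D = 0 ∧ cls D = c ∧ u ≠ 0 ∧
    (∀ v : Place K F, v.ord u = n * D v) ∧ h ^ n = Ψ u ∧ HasChar H h χ

variable {x : F} {H : Subgroup G} {Ψ : F →ₐ[K] L} {S : Set G}
variable [IsAlgClosed K] [CharZero K] [H.FiniteIndex]

/-- an element without zeros and poles is constant -/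
theorem exists_const_of_forall_ord_eq_zero [IsFF1 K F] (f : F) (hf : ∀ v : Place K F, v.ord f = 0) :
    ∃ a : K, f = algebraMap K F a := by
  rcases exists_const_or_transcendental (K := K) f with h | htr
  · exact h
  · exfalso
    obtain ⟨s, hs, hsum⟩ := exists_finset_ord_pos f htr
    have : FiniteDimensional K⟮f⟯ F := IsFF1.finite f htr
    have hpos : 0 < Module.finrank K⟮f⟯ F := Module.finrank_pos
    rw [Finset.sum_congr rfl fun v _ => hf v, Finset.sum_const_zero] at hsum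
    omega

omit [IsAlgClosed K] [CharZero K] in
/-- `cls` commutes with multiplication by natural numbers (on degree zero divisors) -/
theorem cls_nsmul' {D : Divisor K F} (hD : Divisor.degree D = 0) (n : ℕ) :
    cls (n • D) = n • cls D := by
  induction n with
  | zero => rw [zero_nsmul, zero_nsmul, cls_zero]
  | succ k ih =>
    rw [succ_nsmul, succ_nsmul, cls_add (by rw [map_nsmul, hD, smul_zero]) hD, ih]

omit [IsAlgClosed K] [CharZero K] [H.FiniteIndex] in
/-- an eigenvector determines its character -/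
theorem HasChar.unique {h : L} (h0 : h ≠ 0) {χ χ' : H →* Kˣ} (hχ : HasChar H h χ)
    (hχ' : HasChar H h χ') : χ = χ' := by
  ext η
  have h1 := (hχ η).symm.trans (hχ' η)
  exact (algebraMap K L).injective (mul_right_cancel₀ h0 h1)

/-- (a) every torsion class has a multiplier.  [`n • c = 0` gives `u` with `div u = n D`; `hroot` gives `h`;
`(η • h)^n = h^n` so `η • h = ξ(η) h`, `ξ(η) : K` (`exists_const_of_pow_eq`); `ξ` is a character of exponent
`n`; it is trivial on `peElts` by `smul_eq_of_dvd_ord`.] -/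
theorem exists_mult_of_mem_torsion (hx : Transcendental K x) (hU : IsUniformization x H Ψ)
    [FiniteDimensional K⟮x⟯ F] (hdata : HasData x Ψ S) (n : ℕ) (hn : 0 < n)
    (hroot : ∀ u : F, u ≠ 0 → (∀ v : Place K F, (n : ℤ) ∣ v.ord u) → ∃ h : L, h ^ n = Ψ u)
    (c : Pic0 K F) (hc : c ∈ Pic0.torsion K F n) :
    ∃ χ : H →* Kˣ, IsPEChar H S n χ ∧ Mult Ψ H n c χ := by
  obtain ⟨D, hD, rfl⟩ := cls_surjective c
  rw [Pic0.mem_torsion, natCast_zsmul, ← cls_nsmul' hD,
    cls_eq_zero_iff (by rw [map_nsmul, hD, smul_zero])] at hc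
  obtain ⟨u, hu, hDu⟩ := hc
  have hord : ∀ v : Place K F, v.ord u = n * D v := fun v => by
    rw [← hDu v, Finsupp.smul_apply, nsmul_eq_mul]
  have hdvd : ∀ v : Place K F, (n : ℤ) ∣ v.ord u := fun v => ⟨D v, hord v⟩
  obtain ⟨h, hpow⟩ := hroot u hu hdvd
  have hΨu : Ψ u ≠ 0 := (map_ne_zero Ψ).mpr hu
  have h0 : h ≠ 0 := by
    rintro rfl
    rw [zero_pow hn.ne'] at hpow
    exact hΨu hpow.symm
  -- the multiplier of each element of `H`
  have hex : ∀ η : H, ∃ b : Kˣ, (η : G) • h = algebraMap K L (b : K) * h := by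
    intro η
    have h1 : (((η : G) • h) / h) ^ n = algebraMap K L 1 := by
      rw [div_pow, ← smul_pow', hpow, hU.smul_of_mem η η.2, div_self hΨu, map_one]
    obtain ⟨b, hb⟩ := exists_const_of_pow_eq hn _ 1 h1
    have hb0 : b ≠ 0 := by
      rintro rfl
      rw [hb, map_zero, zero_pow hn.ne', map_one] at h1
      exact zero_ne_one h1
    exact ⟨Units.mk0 b hb0, by rw [Units.val_mk0, ← hb, div_mul_cancel₀ _ h0]⟩
  choose ξ hξ using hex
  have hinj : ∀ a b : Kˣ, algebraMap K L (a : K) * h = algebraMap K L (b : K) * h → a = b := by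
    intro a b hab
    exact Units.ext ((algebraMap K L).injective (mul_right_cancel₀ h0 hab))
  let χ : H →* Kˣ :=
    { toFun := ξ
      map_one' := by
        apply hinj
        rw [← hξ 1, Subgroup.coe_one, one_smul, Units.val_one, map_one, one_mul]
      map_mul' := by
        intro η η'
        apply hinj
        rw [← hξ (η * η'), Subgroup.coe_mul, mul_smul, hξ η', smul_mul', hU.smul_algebraMap, hξ η,
          Units.val_mul, map_mul]
        ring }
  have hχ : HasChar H h χ := hξ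
  refine ⟨χ, ⟨fun η => ?_, fun η hη => ?_⟩, D, u, h, hD, rfl, hu, hord, hpow, hχ⟩
  · apply Units.ext
    apply (algebraMap K L).injective
    have h1 : ((η : G) • h) ^ n = h ^ n := by
      rw [← smul_pow', hpow, hU.smul_of_mem η η.2]
    rw [hχ η, mul_pow] at h1
    have h2 := mul_right_cancel₀ (pow_ne_zero n h0) (h1.trans (one_mul _).symm)
    rw [Units.val_pow_eq_pow_val, map_pow, h2, Units.val_one, map_one]
  · apply hinj
    rw [← hχ η, smul_eq_of_dvd_ord hx hU hdata n hn u hu h hpow hdvd η hη, Units.val_one, map_one,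
      one_mul]

/-- (b) the multiplier is unique.  [`D' = D + div s`, so `u' = a u s^n`, `a : K`
(`exists_const_of_forall_ord_eq_zero`), `(h' / (h Ψ s))^n = a`, so `h' = b h Ψ s`, `b : K`.] -/
theorem Mult.unique_right (hx : Transcendental K x) (hU : IsUniformization x H Ψ)
    [FiniteDimensional K⟮x⟯ F] {n : ℕ} (hn : 0 < n) {c : Pic0 K F} {χ χ' : H →* Kˣ}
    (h : Mult Ψ H n c χ) (h' : Mult Ψ H n c χ') : χ = χ' := by
  have : IsFF1 K F := IsFF1.of_exists x
  obtain ⟨D, u, g, hD, hc, hu, hord, hpow, hχ⟩ := h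
  obtain ⟨D', u', g', hD', hc', hu', hord', hpow', hχ'⟩ := h'
  have hlin : LinEq D D' := (cls_eq_cls_iff hD hD').mp (hc.trans hc'.symm)
  obtain ⟨s, hs, hDs⟩ := hlin
  have hsn : s ^ n ≠ 0 := pow_ne_zero n hs
  -- `u / (u' s^n)` has no zeros and poles
  obtain ⟨a, ha⟩ := exists_const_of_forall_ord_eq_zero (K := K) (u * (u' * s ^ n)⁻¹) (fun v => by
    rw [v.ord_mul hu (inv_ne_zero (mul_ne_zero hu' hsn)), v.ord_inv, v.ord_mul hu' hsn, ord_pow,
      hord, hord', ← hDs v, Finsupp.sub_apply]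
    ring)
  have hu_eq : u = algebraMap K F a * (u' * s ^ n) := by
    rw [← ha, inv_mul_cancel_right₀ (mul_ne_zero hu' hsn)]
  have hΨu : Ψ u ≠ 0 := (map_ne_zero Ψ).mpr hu
  have hΨu' : Ψ u' ≠ 0 := (map_ne_zero Ψ).mpr hu'
  have hΨs : Ψ s ≠ 0 := (map_ne_zero Ψ).mpr hs
  have hg0 : g ≠ 0 := by
    rintro rfl
    rw [zero_pow hn.ne'] at hpow
    exact hΨu hpow.symm
  have hg'0 : g' ≠ 0 := by
    rintro rfl
    rw [zero_pow hn.ne'] at hpow'
    exact hΨu' hpow'.symm
  have hden : g' * Ψ s ≠ 0 := mul_ne_zero hg'0 hΨs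
  have h1 : (g / (g' * Ψ s)) ^ n = algebraMap K L a := by
    rw [div_pow, mul_pow, hpow, hpow', hu_eq, map_mul, map_mul, map_pow, AlgHom.commutes,
      mul_div_assoc, div_self (mul_ne_zero hΨu' (pow_ne_zero n hΨs)), mul_one]
  obtain ⟨b, hb⟩ := exists_const_of_pow_eq hn _ a h1
  have hg : g = algebraMap K L b * (g' * Ψ s) := by
    rw [← hb, div_mul_cancel₀ _ hden]
  refine HasChar.unique hg0 hχ (fun η => ?_)
  rw [hg, smul_mul', smul_mul', hU.smul_algebraMap, hU.smul_of_mem η η.2, hχ' η]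
  ring

/-- (c) every character occurs.  [`heis` gives `h`; `h^n` is fixed by `H`, so `h^n = Ψ u`
(`exists_eq_of_fixed`); `n ∣ ord_v u` (`dvd_ord_of_pow_eq`); `D := (div u) / n` has degree `0`.] -/
theorem exists_mult_of_isPEChar (hx : Transcendental K x) (hU : IsUniformization x H Ψ)
    [FiniteDimensional K⟮x⟯ F] (hcov : Covers x Ψ S) (n : ℕ) (hn : 0 < n)
    (heis : ∀ χ : H →* Kˣ, IsPEChar H S n χ → ∃ h : L, h ≠ 0 ∧ HasChar H h χ)
    (χ : H →* Kˣ) (hχ : IsPEChar H S n χ) :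
    ∃ c ∈ Pic0.torsion K F n, Mult Ψ H n c χ := by
  have : IsFF1 K F := IsFF1.of_exists x
  have hn0 : (n : ℤ) ≠ 0 := by exact_mod_cast hn.ne'
  obtain ⟨h, hh0, hh⟩ := heis χ hχ
  -- `h ^ n` is fixed by `H`
  have hfixpow : ∀ η ∈ H, η • (h ^ n) = h ^ n := by
    intro η hη
    have h1 := hh ⟨η, hη⟩
    have h2 : ((χ ⟨η, hη⟩ : Kˣ) : K) ^ n = 1 := by
      have := congrArg Units.val (hχ.1 ⟨η, hη⟩)
      rwa [Units.val_pow_eq_pow_val, Units.val_one] at this
    rw [smul_pow']
    change η • h = _ at h1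
    rw [h1, mul_pow, ← map_pow, h2, map_one, one_mul]
  obtain ⟨u, hu⟩ := exists_eq_of_fixed hU (h ^ n) hfixpow
  have hu0 : u ≠ 0 := by
    rintro rfl
    rw [map_zero] at hu
    exact pow_ne_zero n hh0 hu.symm
  have hfix : ∀ η ∈ peElts H S, η • h = h := by
    intro η hη
    have h1 := hh ⟨η, hη.1⟩
    have h2 := hχ.2 ⟨η, hη.1⟩ hη
    change η • h = _ at h1
    rw [h1, h2, Units.val_one, map_one, one_mul]
  have hdvd := dvd_ord_of_pow_eq hx hU hcov n u hu0 h hu.symm hfix
  obtain ⟨D0, hD0⟩ := exists_isDivOf (K := K) u hu0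
  set D : Divisor K F := D0.mapRange (fun a => a / (n : ℤ)) (by simp) with hD
  have hDv : ∀ v : Place K F, v.ord u = n * D v := by
    intro v
    rw [hD, Finsupp.mapRange_apply, hD0.2 v, Int.mul_ediv_cancel' (hdvd v)]
  have hnD : (n : ℤ) • D = D0 := by
    ext v
    rw [Finsupp.smul_apply, smul_eq_mul, ← hDv v, hD0.2 v]
  have hdeg : Divisor.degree D = 0 := by
    have h1 : Divisor.degree ((n : ℤ) • D) = 0 := by rw [hnD]; exact hD0.degree
    rw [map_zsmul, smul_eq_mul] at h1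
    exact (mul_eq_zero.mp h1).resolve_left hn0
  refine ⟨cls D, ?_, D, u, h, hdeg, rfl, hu0, hDv, hu.symm, hh⟩
  rw [Pic0.mem_torsion, cls_eq_mk hdeg]
  have h3 : (n : ℤ) • Pic0.mk (⟨D, hdeg⟩ : Divisor.degZero (K := K) (F := F))
      = Pic0.mk ((n : ℤ) • (⟨D, hdeg⟩ : Divisor.degZero (K := K) (F := F))) := rfl
  rw [h3, Pic0.mk, QuotientAddGroup.eq_zero_iff, AddSubgroup.mem_addSubgroupOf]
  change (n : ℤ) • D ∈ _
  rw [hnD]
  exact ⟨u, hD0⟩

/-- (d) the class is determined by the multiplier.  [`h' / h` is fixed by `H`, so it is `Ψ s`; `u' = u s^n`;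
`n D' = n (D + div s)`; divisors are torsion free.] -/
theorem Mult.unique_left (hx : Transcendental K x) (hU : IsUniformization x H Ψ)
    [FiniteDimensional K⟮x⟯ F] {n : ℕ} (hn : 0 < n) {c c' : Pic0 K F} {χ : H →* Kˣ}
    (h : Mult Ψ H n c χ) (h' : Mult Ψ H n c' χ) : c = c' := by
  have hn0 : (n : ℤ) ≠ 0 := by exact_mod_cast hn.ne'
  obtain ⟨D, u, g, hdeg, rfl, hu0, hord, hpow, hchar⟩ := h
  obtain ⟨D', u', g', hdeg', rfl, hu0', hord', hpow', hchar'⟩ := h'
  have hΨ : Function.Injective Ψ := Ψ.toRingHom.injective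
  have hg0 : g ≠ 0 := by
    rintro rfl
    rw [zero_pow hn.ne'] at hpow
    exact hu0 (hΨ (by rw [← hpow, map_zero]))
  have hg0' : g' ≠ 0 := by
    rintro rfl
    rw [zero_pow hn.ne'] at hpow'
    exact hu0' (hΨ (by rw [← hpow', map_zero]))
  have hfix : ∀ η ∈ H, η • (g' * g⁻¹) = g' * g⁻¹ := by
    intro η hη
    have h1 := hchar ⟨η, hη⟩
    have h2 := hchar' ⟨η, hη⟩
    change η • g = _ at h1
    change η • g' = _ at h2
    have h3 : algebraMap K L ((χ ⟨η, hη⟩ : Kˣ) : K) ≠ 0 := by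
      rw [Ne, map_eq_zero]
      exact Units.ne_zero _
    rw [smul_mul', smul_inv'', h1, h2]
    field_simp
  obtain ⟨s, hs⟩ := exists_eq_of_fixed hU (g' * g⁻¹) hfix
  have hs0 : s ≠ 0 := by
    rintro rfl
    rw [map_zero] at hs
    exact mul_ne_zero hg0' (inv_ne_zero hg0) hs.symm
  have hus : u' = u * s ^ n := by
    apply hΨ
    rw [map_mul, map_pow, hs, ← hpow, ← hpow', mul_pow, inv_pow]
    field_simp
  rw [cls_eq_cls_iff hdeg hdeg']
  apply LinEq.symm
  refine ⟨s, hs0, fun v => ?_⟩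
  have h1 := hord' v
  rw [hus, v.ord_mul hu0 (pow_ne_zero n hs0), hord v] at h1
  have h2 : v.ord (s ^ n) = n * v.ord s := by
    have := v.ord_zpow s (n : ℤ)
    rwa [zpow_natCast] at this
  rw [h2, ← mul_add] at h1
  have h3 := mul_left_cancel₀ hn0 h1
  rw [Finsupp.sub_apply, ← h3]
  ring

/-- **Abstract count.** -/
theorem card_torsion_eq_card_char (hx : Transcendental K x) (hU : IsUniformization x H Ψ)
    [FiniteDimensional K⟮x⟯ F] (hcov : Covers x Ψ S) (hdata : HasData x Ψ S) (n : ℕ) (hn : 0 < n)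
    (hroot : ∀ u : F, u ≠ 0 → (∀ v : Place K F, (n : ℤ) ∣ v.ord u) → ∃ h : L, h ^ n = Ψ u)
    (heis : ∀ χ : H →* Kˣ, IsPEChar H S n χ → ∃ h : L, h ≠ 0 ∧ HasChar H h χ) :
    Nat.card (Pic0.torsion K F n) = Nat.card {χ : H →* Kˣ // IsPEChar H S n χ} := by
  have key : ∀ c : Pic0.torsion K F n, ∃ χ : H →* Kˣ, IsPEChar H S n χ ∧ Mult Ψ H n c.1 χ :=
    fun c => exists_mult_of_mem_torsion hx hU hdata n hn hroot c.1 c.2
  let f : Pic0.torsion K F n → {χ : H →* Kˣ // IsPEChar H S n χ} :=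
    fun c => ⟨(key c).choose, (key c).choose_spec.1⟩
  have hf : ∀ c, Mult Ψ H n c.1 (f c).1 := fun c => (key c).choose_spec.2
  refine Nat.card_congr (Equiv.ofBijective f ⟨?_, ?_⟩)
  · intro c c' hcc
    apply Subtype.ext
    have h1 := hf c
    have h2 := hf c'
    rw [hcc] at h1
    exact Mult.unique_left hx hU hn h1 h2
  · intro χ
    obtain ⟨c, hc, hm⟩ := exists_mult_of_isPEChar hx hU hcov n hn heis χ.1 χ.2
    refine ⟨⟨c, hc⟩, Subtype.ext ?_⟩
    exact Mult.unique_right hx hU hn (hf ⟨c, hc⟩) hm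

end Fermat.Agent.NV2
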